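/-
GATE-Z (S15) / [MOD-beta] T2-ALG (helper93): the chord addition on the Tate curve from the curve
equation ALONE, abstract core (Mathlib only).

Setting: the curve `y² + x y = x³ + a₄ x + a₆` over a commutative ring `R` with a derivation `D`
killing `a₄`, `a₆` (think `R = k⟦q⟧`, `k = ℚ(u, v)`, `D = u ∂/∂u` coefficientwise).

* `Abel`: for two points `A = (x₁, y₁)` ("moving": `D x₁ = 2 y₁ + x₁`) and `B = (x₂, y₂)` ("fixed":
  `D x₂ = D y₂ = 0`) with `x₁ - x₂` invertible, the third point `(x₃, y₃)` of the chord satisfies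
  `D λ = x₁ - x₃`, `D x₃ = -(2 y₃ + x₃)` and lies on the curve.
* `coeffD`: the coefficientwise extension of a derivation of `k` to `k⟦X⟧`.
* `eq_of_ode`: **uniqueness**.  Two solutions `x, x'` in `k⟦X⟧` of `z² = f(x)`, `D x = -z`
  (for two derivations whose common constants are fixed by a ring endomorphism `ι`) that agree
  modulo `X`, are `ι`-invariant, and whose `z` is `ι`-anti-invariant modulo `X`, are equal.
* `chord_eq`: the assembly: the third point of the chord `A B` IS the given point `C`.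
-/
import Mathlib

set_option autoImplicit false

open PowerSeries

namespace Fermat.Agent.GZ.Tate.T2Alg

/-! ### Abel's relation for a chord -/

section Abel

variable {S R : Type*} [CommRing S] [CommRing R] [Algebra S R] (D : Derivation S R R)

/-- the slope of the chord, `e` being the inverse of `x₁ - x₂`. -/
def slope (y₁ y₂ e : R) : R := (y₁ - y₂) * e

/-- the `x`-coordinate of the third point of the chord. -/
def thirdX (x₁ y₁ x₂ y₂ e : R) : R := slope y₁ y₂ e ^ 2 + slope y₁ y₂ e - x₁ - x₂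

/-- the `y`-coordinate of the third point of the chord. -/
def thirdY (x₁ y₁ x₂ y₂ e : R) : R := slope y₁ y₂ e * (thirdX x₁ y₁ x₂ y₂ e - x₁) + y₁

variable {D} {a₄ a₆ x₁ y₁ x₂ y₂ e : R}

theorem D_inv (he : (x₁ - x₂) * e = 1) (hDx₁ : D x₁ = 2 * y₁ + x₁) (hDx₂ : D x₂ = 0) :
    D e = -(2 * y₁ + x₁) * e ^ 2 := by
  have h := D.leibniz_of_mul_eq_one (a := e) (b := x₁ - x₂) (by rw [mul_comm]; exact he)
  rw [h, map_sub, hDx₁, hDx₂, sub_zero, smul_eq_mul]
  ring

/-- **Abel**: `D λ = x₁ - x₃`. -/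
theorem D_slope (h₁ : y₁ ^ 2 + x₁ * y₁ = x₁ ^ 3 + a₄ * x₁ + a₆)
    (h₂ : y₂ ^ 2 + x₂ * y₂ = x₂ ^ 3 + a₄ * x₂ + a₆) (he : (x₁ - x₂) * e = 1)
    (hDx₁ : D x₁ = 2 * y₁ + x₁) (hDy₁ : D y₁ = 3 * x₁ ^ 2 + a₄ - y₁)
    (hDx₂ : D x₂ = 0) (hDy₂ : D y₂ = 0) :
    D (slope y₁ y₂ e) = x₁ - thirdX x₁ y₁ x₂ y₂ e := by
  have hDe := D_inv he hDx₁ hDx₂
  unfold thirdX slope
  rw [D.leibniz, map_sub, hDy₁, hDy₂, hDe, smul_eq_mul, smul_eq_mul, sub_zero]
  linear_combination (-e ^ 2) * h₁ + e ^ 2 * h₂ -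
    ((3 * x₁ ^ 2 + a₄ - y₁) * e - (2 * x₁ + x₂) * (1 + e * (x₁ - x₂)) + (y₁ - y₂) * e) * he

/-- `D x₃ = -(2 y₃ + x₃)`. -/
theorem D_thirdX (h₁ : y₁ ^ 2 + x₁ * y₁ = x₁ ^ 3 + a₄ * x₁ + a₆)
    (h₂ : y₂ ^ 2 + x₂ * y₂ = x₂ ^ 3 + a₄ * x₂ + a₆) (he : (x₁ - x₂) * e = 1)
    (hDx₁ : D x₁ = 2 * y₁ + x₁) (hDy₁ : D y₁ = 3 * x₁ ^ 2 + a₄ - y₁)
    (hDx₂ : D x₂ = 0) (hDy₂ : D y₂ = 0) :
    D (thirdX x₁ y₁ x₂ y₂ e) = -(2 * thirdY x₁ y₁ x₂ y₂ e + thirdX x₁ y₁ x₂ y₂ e) := by
  have hs := D_slope h₁ h₂ he hDx₁ hDy₁ hDx₂ hDy₂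
  have h3 : D (thirdX x₁ y₁ x₂ y₂ e) =
      (2 * slope y₁ y₂ e + 1) * D (slope y₁ y₂ e) - D x₁ - D x₂ := by
    conv_lhs => unfold thirdX
    rw [map_sub, map_sub, map_add, D.leibniz_pow, smul_eq_mul, nsmul_eq_mul]
    push_cast
    ring
  rw [h3, hs, hDx₁, hDx₂]
  unfold thirdY
  ring

/-- the third point of the chord lies on the curve. -/
theorem third_on_curve (h₁ : y₁ ^ 2 + x₁ * y₁ = x₁ ^ 3 + a₄ * x₁ + a₆)
    (h₂ : y₂ ^ 2 + x₂ * y₂ = x₂ ^ 3 + a₄ * x₂ + a₆) (he : (x₁ - x₂) * e = 1) :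
    thirdY x₁ y₁ x₂ y₂ e ^ 2 + thirdX x₁ y₁ x₂ y₂ e * thirdY x₁ y₁ x₂ y₂ e =
      thirdX x₁ y₁ x₂ y₂ e ^ 3 + a₄ * thirdX x₁ y₁ x₂ y₂ e + a₆ := by
  set l := slope y₁ y₂ e with hl
  set x₃ := thirdX x₁ y₁ x₂ y₂ e with hx₃
  set ν := y₁ - l * x₁ with hν
  have hx₃' : x₃ = l ^ 2 + l - x₁ - x₂ := rfl
  have hy₂ : y₂ = l * x₂ + ν := by
    rw [hν, hl]; unfold slope
    linear_combination (y₁ - y₂) * he
  have hy₁ : y₁ = l * x₁ + ν := by rw [hν]; ring
  -- the remainder `ρ(T) = α T + β` of `g(T) - (T - x₁)(T - x₂)(T - x₃)`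
  set α := a₄ - 2 * l * ν - ν - (x₁ * x₂ + x₁ * x₃ + x₂ * x₃) with hα
  set β := a₆ - ν ^ 2 + x₁ * x₂ * x₃ with hβ
  have hg₁ : α * x₁ + β = 0 := by
    rw [hα, hβ, hx₃']
    rw [hy₁] at h₁
    linear_combination -h₁
  have hg₂ : α * x₂ + β = 0 := by
    rw [hα, hβ, hx₃']
    rw [hy₂] at h₂
    linear_combination -h₂
  have hα0 : α = 0 := by
    have : α * (x₁ - x₂) = 0 := by linear_combination hg₁ - hg₂
    calc α = α * ((x₁ - x₂) * e) := by rw [he, mul_one]
      _ = α * (x₁ - x₂) * e := by ring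
      _ = 0 := by rw [this, zero_mul]
  have hβ0 : β = 0 := by rw [hα0, zero_mul, zero_add] at hg₁; exact hg₁
  have hy₃ : thirdY x₁ y₁ x₂ y₂ e = l * x₃ + ν := by
    unfold thirdY; rw [hν]; ring
  rw [hy₃]
  have e1 : (l * x₃ + ν) ^ 2 + x₃ * (l * x₃ + ν) - (x₃ ^ 3 + a₄ * x₃ + a₆) =
      -(α * x₃ + β) := by
    rw [hα, hβ, hx₃']; ring
  have e2 : (l * x₃ + ν) ^ 2 + x₃ * (l * x₃ + ν) - (x₃ ^ 3 + a₄ * x₃ + a₆) = 0 := by
    rw [e1, hα0, hβ0]; ring
  exact sub_eq_zero.mp e2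

/-- the chord construction is symmetric in the two points. -/
theorem slope_symm : slope y₂ y₁ (-e) = slope y₁ y₂ e := by
  unfold slope; ring

theorem thirdX_symm : thirdX x₂ y₂ x₁ y₁ (-e) = thirdX x₁ y₁ x₂ y₂ e := by
  unfold thirdX slope; ring

theorem thirdY_symm (he : (x₁ - x₂) * e = 1) :
    thirdY x₂ y₂ x₁ y₁ (-e) = thirdY x₁ y₁ x₂ y₂ e := by
  unfold thirdY thirdX slope
  linear_combination (y₁ - y₂) * he

/-- the `y`-derivative is forced by the curve equation (in a domain, `2 y + x ≠ 0`). -/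
theorem D_y_of_curve [NoZeroDivisors R] {x y : R}
    (h : y ^ 2 + x * y = x ^ 3 + a₄ * x + a₆) (ha₄ : D a₄ = 0) (ha₆ : D a₆ = 0)
    (hDx : D x = 2 * y + x) (hz : 2 * y + x ≠ 0) : D y = 3 * x ^ 2 + a₄ - y := by
  have h1 := congrArg D h
  simp only [map_add, Derivation.leibniz, Derivation.leibniz_pow, smul_eq_mul, nsmul_eq_mul,
    ha₄, ha₆, hDx] at h1
  push_cast at h1
  have h2 : (2 * y + x) * (D y - (3 * x ^ 2 + a₄ - y)) = 0 := by
    linear_combination h1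
  rcases mul_eq_zero.mp h2 with h3 | h3
  · exact absurd h3 hz
  · exact sub_eq_zero.mp h3

end Abel

/-! ### the coefficientwise extension of a derivation to power series -/

section CoeffD

variable {k : Type*} [CommRing k]

/-- the underlying function of `coeffD`. -/
noncomputable def coeffDFun (d : Derivation ℤ k k) (f : k⟦X⟧) : k⟦X⟧ :=
  PowerSeries.mk fun n => d (coeff n f)

theorem coeff_coeffDFun (d : Derivation ℤ k k) (f : k⟦X⟧) (n : ℕ) :
    coeff n (coeffDFun d f) = d (coeff n f) := coeff_mk _ _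

theorem coeffDFun_add (d : Derivation ℤ k k) (f g : k⟦X⟧) :
    coeffDFun d (f + g) = coeffDFun d f + coeffDFun d g := by
  ext n; simp only [coeff_coeffDFun, map_add]

theorem coeffDFun_mul (d : Derivation ℤ k k) (f g : k⟦X⟧) :
    coeffDFun d (f * g) = f * coeffDFun d g + g * coeffDFun d f := by
  ext n
  rw [coeff_coeffDFun, map_add, coeff_mul, coeff_mul, coeff_mul, map_sum]
  simp only [coeff_coeffDFun, Derivation.leibniz, smul_eq_mul, Finset.sum_add_distrib]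
  congr 1
  rw [← Finset.Nat.sum_antidiagonal_swap]
  rfl

/-- the coefficientwise extension of a derivation `d` of `k` to `k⟦X⟧`. -/
noncomputable def coeffD (d : Derivation ℤ k k) : Derivation ℤ k⟦X⟧ k⟦X⟧ :=
  Derivation.mk'
    (AddMonoidHom.toIntLinearMap
      { toFun := coeffDFun d
        map_zero' := by ext n; simp [coeff_coeffDFun]
        map_add' := coeffDFun_add d })
    (fun f g => by
      show coeffDFun d (f * g) = f • coeffDFun d g + g • coeffDFun d f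
      rw [coeffDFun_mul, smul_eq_mul, smul_eq_mul])

theorem coeffD_apply (d : Derivation ℤ k k) (f : k⟦X⟧) : coeffD d f = coeffDFun d f := rfl

@[simp]
theorem coeff_coeffD (d : Derivation ℤ k k) (f : k⟦X⟧) (n : ℕ) :
    coeff n (coeffD d f) = d (coeff n f) := by
  rw [coeffD_apply, coeff_coeffDFun]

theorem constantCoeff_coeffD (d : Derivation ℤ k k) (f : k⟦X⟧) :
    constantCoeff (coeffD d f) = d (constantCoeff f) := by
  rw [← coeff_zero_eq_constantCoeff_apply, coeff_coeffD, coeff_zero_eq_constantCoeff_apply]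

end CoeffD

/-! ### uniqueness of the solution of `D x = -z`, `z² = f(x)` -/

section Uniq

theorem deriv_cubic {A : Type*} [CommRing A] (D : Derivation ℤ A A) (x a b : A) :
    D (4 * x ^ 3 + x ^ 2 + 4 * a * x + 4 * b) =
      (12 * x ^ 2 + 2 * x + 4 * a) * D x + 4 * x * D a + 4 * D b := by
  have h4 : D (4 : A) = 0 := by
    have : (4 : A) = ((4 : ℕ) : A) := by norm_num
    rw [this, D.map_natCast]
  simp only [map_add, Derivation.leibniz, Derivation.leibniz_pow, smul_eq_mul, nsmul_eq_mul, h4]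
  push_cast
  ring

theorem coeff_mul_of_forall_lt {k : Type*} [CommRing k] {a b : k⟦X⟧} {e : ℕ} (h : ∀ i < e, coeff i a = 0) :
    coeff e (a * b) = coeff e a * constantCoeff b := by
  rw [coeff_mul, Finset.sum_eq_single (e, 0)]
  · rw [coeff_zero_eq_constantCoeff_apply]
  · intro p hp hne
    have hsum : p.1 + p.2 = e := Finset.HasAntidiagonal.mem_antidiagonal.mp hp
    have hlt : p.1 < e := by
      rcases Nat.eq_zero_or_pos p.2 with h2 | h2
      · exfalso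
        apply hne
        ext
        · show p.1 = e
          omega
        · exact h2
      · omega
    rw [h _ hlt, zero_mul]
  · intro h'
    exact absurd (Finset.HasAntidiagonal.mem_antidiagonal.mpr (add_zero e)) h'

variable {k : Type*} [Field k] [CharZero k]

/-- **uniqueness.** -/
theorem eq_of_ode (d₁ d₂ : Derivation ℤ k k) (ι : k →+* k)
    (hconst : ∀ c : k, d₁ c = 0 → d₂ c = 0 → ι c = c)
    {a₄ a₆ x z x' z' : k⟦X⟧}
    (ha₄₁ : d₁ (constantCoeff a₄) = 0) (ha₄₂ : d₂ (constantCoeff a₄) = 0)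
    (ha₆₁ : d₁ (constantCoeff a₆) = 0) (ha₆₂ : d₂ (constantCoeff a₆) = 0)
    (hz : z ^ 2 = 4 * x ^ 3 + x ^ 2 + 4 * a₄ * x + 4 * a₆)
    (hz' : z' ^ 2 = 4 * x' ^ 3 + x' ^ 2 + 4 * a₄ * x' + 4 * a₆)
    (h₁x : coeffD d₁ x = -z) (h₂x : coeffD d₂ x = -z)
    (h₁x' : coeffD d₁ x' = -z') (h₂x' : coeffD d₂ x' = -z')
    (h0x : constantCoeff x' = constantCoeff x) (h0z : constantCoeff z' = constantCoeff z)
    (hz0 : constantCoeff z ≠ 0)
    (hιx : PowerSeries.map ι x = x) (hιx' : PowerSeries.map ι x' = x')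
    (hιz : ι (constantCoeff z) = -constantCoeff z) : x' = x := by
  by_contra hne
  set δ : k⟦X⟧ := x' - x with hδ
  have hδ0 : δ ≠ 0 := sub_ne_zero.mpr hne
  set e : ℕ := δ.order.toNat with he
  have hlt : ∀ i < e, coeff i δ = 0 := fun i hi => coeff_of_lt_order_toNat i hi
  have hδe : coeff e δ ≠ 0 := coeff_order hδ0
  set x₀ := constantCoeff x with hx₀
  set z₀ := constantCoeff z with hz₀
  -- the relation of order zero
  have h00 : z₀ ^ 2 = 4 * x₀ ^ 3 + x₀ ^ 2 + 4 * constantCoeff a₄ * x₀ + 4 * constantCoeff a₆ := by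
    have := congrArg constantCoeff hz
    simpa only [map_pow, map_add, map_mul, map_ofNat] using this
  -- the key relation for one derivation
  have key : ∀ d : Derivation ℤ k k, d (constantCoeff a₄) = 0 → d (constantCoeff a₆) = 0 →
      coeffD d x = -z → coeffD d x' = -z' → d (coeff e δ / z₀) = 0 := by
    intro d ha₄ ha₆ hx hx'
    have hzz : z' - z = -coeffD d δ := by
      rw [hδ, map_sub, hx, hx']; ring
    have hlow : ∀ i < e, coeff i (z' - z) = 0 := by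
      intro i hi
      rw [hzz, map_neg, coeff_coeffD, hlt i hi, map_zero, neg_zero]
    have htop : coeff e (z' - z) = -d (coeff e δ) := by
      rw [hzz, map_neg, coeff_coeffD]
    have hfac : (z' - z) * (z' + z) =
        δ * (4 * (x' ^ 2 + x' * x + x ^ 2) + (x' + x) + 4 * a₄) := by
      rw [hδ]; linear_combination hz' - hz
    have hc := congrArg (coeff e) hfac
    rw [coeff_mul_of_forall_lt hlow, coeff_mul_of_forall_lt hlt, htop] at hc
    have hg0 : constantCoeff (4 * (x' ^ 2 + x' * x + x ^ 2) + (x' + x) + 4 * a₄) =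
        12 * x₀ ^ 2 + 2 * x₀ + 4 * constantCoeff a₄ := by
      simp only [map_pow, map_add, map_mul, map_ofNat, h0x]
      ring
    have hs0 : constantCoeff (z' + z) = 2 * z₀ := by
      rw [map_add, h0z]; ring
    rw [hg0, hs0] at hc
    -- derivative of the relation of order zero
    have hdx₀ : d x₀ = -z₀ := by
      have := congrArg constantCoeff hx
      rwa [constantCoeff_coeffD, map_neg] at this
    have hd00 : 2 * z₀ * d z₀ = (12 * x₀ ^ 2 + 2 * x₀ + 4 * constantCoeff a₄) * (-z₀) := by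
      have h1 := congrArg d h00
      rw [deriv_cubic, ha₄, ha₆, hdx₀, Derivation.leibniz_pow, smul_eq_mul, nsmul_eq_mul] at h1
      push_cast at h1
      linear_combination h1
    have hg : 12 * x₀ ^ 2 + 2 * x₀ + 4 * constantCoeff a₄ = -2 * d z₀ := by
      have : z₀ * (12 * x₀ ^ 2 + 2 * x₀ + 4 * constantCoeff a₄ + 2 * d z₀) = 0 := by
        linear_combination hd00
      rcases mul_eq_zero.mp this with h | h
      · exact absurd h hz0
      · linear_combination h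
    rw [hg] at hc
    -- `z₀ d δ_e = δ_e d z₀`
    have hrel : z₀ * d (coeff e δ) = coeff e δ * d z₀ := by
      have h2 : (2 : k) ≠ 0 := two_ne_zero
      have : 2 * (z₀ * d (coeff e δ) - coeff e δ * d z₀) = 0 := by linear_combination -hc
      rcases mul_eq_zero.mp this with h | h
      · exact absurd h h2
      · exact sub_eq_zero.mp h
    rw [Derivation.leibniz_div, smul_eq_mul, smul_eq_mul, smul_eq_mul, hrel, sub_self, mul_zero]
  have hc₁ := key d₁ ha₄₁ ha₆₁ h₁x h₁x'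
  have hc₂ := key d₂ ha₄₂ ha₆₂ h₂x h₂x'
  have hιc := hconst _ hc₁ hc₂
  -- `ι` fixes `δ_e` and negates `z₀`
  have hιδ : ι (coeff e δ) = coeff e δ := by
    have : PowerSeries.map ι δ = δ := by rw [hδ, map_sub, hιx, hιx']
    have := congrArg (coeff e) this
    rwa [coeff_map] at this
  rw [map_div₀, hιδ, hιz, div_neg] at hιc
  have h2c : 2 * (coeff e δ / z₀) = 0 := by linear_combination -hιc
  rcases mul_eq_zero.mp h2c with h | h
  · exact two_ne_zero h
  · rcases div_eq_zero_iff.mp h with h | h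
    · exact hδe h
    · exact hz0 h

end Uniq

/-! ### the chord theorem, abstract form -/

section Chord

variable {k : Type*} [Field k] [CharZero k]

/-- **the chord theorem, abstract form.**  `A = (x₁, y₁)`, `B = (x₂, y₂)`, `C = (x, y)` three points
of the curve over `k⟦X⟧`; `d₁` moves `A` and fixes `B`, `d₂` moves `B` and fixes `A`, both move `C`
backwards; `ι` is "inversion"; the chord identity holds modulo `X`.  Then `C` is the third point of
the chord `A B`. -/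
theorem chord_eq (d₁ d₂ : Derivation ℤ k k) (ι : k →+* k)
    (hconst : ∀ c : k, d₁ c = 0 → d₂ c = 0 → ι c = c)
    {a₄ a₆ x₁ y₁ x₂ y₂ e x y : k⟦X⟧}
    (ha₄₁ : coeffD d₁ a₄ = 0) (ha₄₂ : coeffD d₂ a₄ = 0)
    (ha₆₁ : coeffD d₁ a₆ = 0) (ha₆₂ : coeffD d₂ a₆ = 0)
    (h₁ : y₁ ^ 2 + x₁ * y₁ = x₁ ^ 3 + a₄ * x₁ + a₆)
    (h₂ : y₂ ^ 2 + x₂ * y₂ = x₂ ^ 3 + a₄ * x₂ + a₆)
    (h₃ : y ^ 2 + x * y = x ^ 3 + a₄ * x + a₆)
    (he : (x₁ - x₂) * e = 1)
    -- `d₁`
    (h11x : coeffD d₁ x₁ = 2 * y₁ + x₁) (h11y : coeffD d₁ y₁ = 3 * x₁ ^ 2 + a₄ - y₁)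
    (h12x : coeffD d₁ x₂ = 0) (h12y : coeffD d₁ y₂ = 0)
    -- `d₂`
    (h22x : coeffD d₂ x₂ = 2 * y₂ + x₂) (h22y : coeffD d₂ y₂ = 3 * x₂ ^ 2 + a₄ - y₂)
    (h21x : coeffD d₂ x₁ = 0) (h21y : coeffD d₂ y₁ = 0)
    -- `C`
    (h1x : coeffD d₁ x = -(2 * y + x)) (h2x : coeffD d₂ x = -(2 * y + x))
    -- `ι`
    (hιx₁ : PowerSeries.map ι x₁ = x₁) (hιy₁ : PowerSeries.map ι y₁ = -y₁ - x₁)
    (hιx₂ : PowerSeries.map ι x₂ = x₂) (hιy₂ : PowerSeries.map ι y₂ = -y₂ - x₂)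
    (hιx : PowerSeries.map ι x = x)
    (hιz : ι (constantCoeff (2 * y + x)) = -constantCoeff (2 * y + x))
    -- modulo `X`
    (h0x : constantCoeff (thirdX x₁ y₁ x₂ y₂ e) = constantCoeff x)
    (h0y : constantCoeff (thirdY x₁ y₁ x₂ y₂ e) = constantCoeff y)
    (hz0 : constantCoeff (2 * y + x) ≠ 0) :
    thirdX x₁ y₁ x₂ y₂ e = x ∧ thirdY x₁ y₁ x₂ y₂ e = y := by
  set x₃ := thirdX x₁ y₁ x₂ y₂ e with hx₃
  set y₃ := thirdY x₁ y₁ x₂ y₂ e with hy₃
  have hcurve₃ := third_on_curve (a₄ := a₄) (a₆ := a₆) h₁ h₂ he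
  have hD₁ := D_thirdX (D := coeffD d₁) h₁ h₂ he h11x h11y h12x h12y
  -- the symmetric construction for `d₂`
  have he' : (x₂ - x₁) * (-e) = 1 := by linear_combination he
  have hD₂ := D_thirdX (D := coeffD d₂) h₂ h₁ he' h22x h22y h21x h21y
  rw [thirdX_symm, thirdY_symm he] at hD₂
  -- `z² = f(x)` for both points
  have hzC : (2 * y + x) ^ 2 = 4 * x ^ 3 + x ^ 2 + 4 * a₄ * x + 4 * a₆ := by
    linear_combination 4 * h₃
  have hz₃ : (2 * y₃ + x₃) ^ 2 = 4 * x₃ ^ 3 + x₃ ^ 2 + 4 * a₄ * x₃ + 4 * a₆ := by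
    linear_combination 4 * hcurve₃
  -- `ι` fixes `x₃`
  have hιe : PowerSeries.map ι e = e := by
    have h1 : (x₁ - x₂) * PowerSeries.map ι e = 1 := by
      have := congrArg (PowerSeries.map ι) he
      rwa [map_mul, map_sub, hιx₁, hιx₂, map_one] at this
    calc PowerSeries.map ι e = ((x₁ - x₂) * e) * PowerSeries.map ι e := by rw [he, one_mul]
      _ = e * ((x₁ - x₂) * PowerSeries.map ι e) := by ring
      _ = e := by rw [h1, mul_one]
  have hιx₃ : PowerSeries.map ι x₃ = x₃ := by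
    rw [hx₃]
    unfold thirdX slope
    simp only [map_sub, map_add, map_pow, map_mul, hιx₁, hιx₂, hιy₁, hιy₂, hιe]
    linear_combination (2 * (y₁ - y₂) * e + (x₁ - x₂) * e) * he
  have hcc : ∀ (d : Derivation ℤ k k) (a : k⟦X⟧), coeffD d a = 0 → d (constantCoeff a) = 0 := by
    intro d a h
    rw [← constantCoeff_coeffD, h, map_zero]
  have hx := eq_of_ode d₁ d₂ ι hconst (hcc d₁ a₄ ha₄₁) (hcc d₂ a₄ ha₄₂) (hcc d₁ a₆ ha₆₁)
    (hcc d₂ a₆ ha₆₂) hzC hz₃ h1x h2x hD₁ hD₂ h0x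
    (by rw [map_add, map_add, map_mul, map_mul, h0x, h0y]) hz0 hιx hιx₃ hιz
  refine ⟨hx, ?_⟩
  -- `y₃ = y`
  have hsq : (2 * y₃ + x₃ - (2 * y + x)) * (2 * y₃ + x₃ + (2 * y + x)) = 0 := by
    rw [hx] at hz₃ ⊢
    linear_combination hz₃ - hzC
  have hne : 2 * y₃ + x₃ + (2 * y + x) ≠ 0 := by
    intro h
    have := congrArg constantCoeff h
    rw [map_add, map_add, map_add, map_mul, map_mul, h0x, h0y, map_zero] at this
    apply hz0
    rw [map_add, map_mul]
    have h2 : (2 : k) ≠ 0 := two_ne_zero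
    have h3 : (2 : k) * (constantCoeff (2 : k⟦X⟧) * constantCoeff y + constantCoeff x) = 0 := by
      linear_combination this
    rcases mul_eq_zero.mp h3 with h | h
    · exact absurd h h2
    · exact h
  rcases mul_eq_zero.mp hsq with h | h
  · rw [hx] at h
    have h2 : (2 : k⟦X⟧) ≠ 0 := by
      intro h2
      have := congrArg constantCoeff h2
      rw [map_ofNat, map_zero] at this
      exact two_ne_zero this
    have h3 : (2 : k⟦X⟧) * (y₃ - y) = 0 := by linear_combination h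
    rcases mul_eq_zero.mp h3 with h | h
    · exact absurd h h2
    · exact sub_eq_zero.mp h
  · exact absurd h hne

end Chord

end Fermat.Agent.GZ.Tate.T2Alg
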