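/-
GATE-Z (S15) / [MOD-beta] T2-ALG (helper93): extension of a derivation to a localisation
(in particular to the fraction field), via the dual numbers `K[ε] = TrivSqZeroExt K K`.

* `extDer M d : Derivation ℤ K K` for `IsLocalization M K` and `d : Derivation ℤ A A`;
* `extDer_algebraMap : extDer M d (algebraMap A K a) = algebraMap A K (d a)`.

Mathlib only.
-/
import Mathlib

set_option autoImplicit false

namespace Fermat.Agent.GZ.Tate.T2Alg

open TrivSqZeroExt

section

variable {A K : Type*} [CommRing A] [CommRing K] [Algebra A K]

/-- `a ↦ a + (d a) ε`, the ring homomorphism `A → K[ε]` attached to a derivation. -/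
noncomputable def dualHom (d : Derivation ℤ A A) : A →+* TrivSqZeroExt K K where
  toFun a := inl (algebraMap A K a) + inr (algebraMap A K (d a))
  map_one' := by
    ext
    · simp
    · simp
  map_mul' a b := by
    ext
    · simp
    · simp only [snd_add, snd_inl, snd_inr, zero_add, snd_mul, fst_add, fst_inl, fst_inr, add_zero,
        Derivation.leibniz, smul_eq_mul, map_add, map_mul, MulOpposite.smul_eq_mul_unop,
        MulOpposite.unop_op]
      ring
  map_zero' := by
    ext
    · simp
    · simp
  map_add' a b := by
    ext
    · simp only [map_add, fst_add, fst_inl, fst_inr, add_zero]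
    · simp only [map_add, snd_add, snd_inl, snd_inr, zero_add]

theorem fst_dualHom (d : Derivation ℤ A A) (a : A) :
    (dualHom (K := K) d a).fst = algebraMap A K a := by
  show (inl (algebraMap A K a) + inr (algebraMap A K (d a)) : TrivSqZeroExt K K).fst = _
  rw [fst_add, fst_inl, fst_inr, add_zero]

theorem snd_dualHom (d : Derivation ℤ A A) (a : A) :
    (dualHom (K := K) d a).snd = algebraMap A K (d a) := by
  show (inl (algebraMap A K a) + inr (algebraMap A K (d a)) : TrivSqZeroExt K K).snd = _
  rw [snd_add, snd_inl, snd_inr, zero_add]

variable (M : Submonoid A) [IsLocalization M K]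

theorem isUnit_dualHom (d : Derivation ℤ A A) (y : M) : IsUnit (dualHom (K := K) d y) := by
  rw [isUnit_iff_isUnit_fst, fst_dualHom]
  exact IsLocalization.map_units K y

/-- the lift `K → K[ε]`. -/
noncomputable def dualLift (d : Derivation ℤ A A) : K →+* TrivSqZeroExt K K :=
  IsLocalization.lift (M := M) (g := dualHom d) (isUnit_dualHom M d)

theorem dualLift_algebraMap (d : Derivation ℤ A A) (a : A) :
    dualLift M d (algebraMap A K a) = dualHom d a :=
  IsLocalization.lift_eq _ a

theorem fst_dualLift (d : Derivation ℤ A A) (x : K) : (dualLift M d x).fst = x := by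
  have h : ((fstHom ℤ K K).toRingHom.comp (dualLift M d)) = RingHom.id K := by
    apply IsLocalization.ringHom_ext M
    ext a
    simp only [RingHom.comp_apply, dualLift_algebraMap, RingHom.id_apply]
    exact fst_dualHom d a
  exact congrArg (fun f : K →+* K => f x) h

/-- the extension of a derivation of `A` to a localisation `K` of `A`. -/
noncomputable def extDer (d : Derivation ℤ A A) : Derivation ℤ K K :=
  Derivation.mk'
    (AddMonoidHom.toIntLinearMap
      { toFun := fun x => (dualLift M d x).snd
        map_zero' := by simp
        map_add' := fun x y => by simp })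
    (fun x y => by
      show (dualLift M d (x * y)).snd = x • (dualLift M d y).snd + y • (dualLift M d x).snd
      rw [map_mul, snd_mul, fst_dualLift, fst_dualLift, smul_eq_mul, smul_eq_mul,
        MulOpposite.smul_eq_mul_unop, MulOpposite.unop_op]
      ring)

theorem extDer_apply (d : Derivation ℤ A A) (x : K) : extDer M d x = (dualLift M d x).snd := rfl

theorem extDer_algebraMap (d : Derivation ℤ A A) (a : A) :
    extDer M d (algebraMap A K a) = algebraMap A K (d a) := by
  rw [extDer_apply, dualLift_algebraMap, snd_dualHom]

end

end Fermat.Agent.GZ.Tate.T2Alg
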