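/-
GATE-Z (S15) / [MOD-beta] T2-ALG (helper93): if `x : σ → K` (finitely many nonzero elements of a
field) is algebraically independent over `ℤ` (evaluation at `x` is injective on `ℤ[X_i]`), so is
`x⁻¹` ("reversal" of a polynomial).  Mathlib only.
-/
import Mathlib

set_option autoImplicit false

namespace Fermat.Agent.GZ.Tate.T2Alg

open MvPolynomial

variable {σ : Type*} [Fintype σ] {K : Type*} [Field K]

/-- the exponent `N - α` (componentwise, `N_i = deg_i p`). -/
noncomputable def revExp (p : MvPolynomial σ ℤ) (α : σ →₀ ℕ) : σ →₀ ℕ :=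
  Finsupp.equivFunOnFinite.symm fun i => degreeOf i p - α i

theorem revExp_apply (p : MvPolynomial σ ℤ) (α : σ →₀ ℕ) (i : σ) :
    revExp p α i = degreeOf i p - α i := rfl

theorem revExp_injOn (p : MvPolynomial σ ℤ) {α β : σ →₀ ℕ} (hα : α ∈ p.support)
    (hβ : β ∈ p.support) (h : revExp p α = revExp p β) : α = β := by
  ext i
  have h1 := congrArg (fun f : σ →₀ ℕ => f i) h
  simp only [revExp_apply] at h1
  have h2 := monomial_le_degreeOf i hα
  have h3 := monomial_le_degreeOf i hβ
  omega

/-- the reversed polynomial. -/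
noncomputable def revPoly (p : MvPolynomial σ ℤ) : MvPolynomial σ ℤ :=
  ∑ α ∈ p.support, monomial (revExp p α) (coeff α p)

theorem coeff_revPoly (p : MvPolynomial σ ℤ) {α : σ →₀ ℕ} (hα : α ∈ p.support) :
    coeff (revExp p α) (revPoly p) = coeff α p := by
  classical
  rw [revPoly, coeff_sum, Finset.sum_eq_single α]
  · rw [coeff_monomial, if_pos rfl]
  · intro β hβ hne
    rw [coeff_monomial, if_neg]
    intro h
    exact hne (revExp_injOn p hβ hα h)
  · intro h
    exact absurd hα h

theorem revPoly_ne_zero {p : MvPolynomial σ ℤ} (hp : p ≠ 0) : revPoly p ≠ 0 := by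
  obtain ⟨α, hα⟩ := (support_nonempty.mpr hp)
  intro h
  have := coeff_revPoly p hα
  rw [h, coeff_zero] at this
  exact (mem_support_iff.mp hα) this.symm

theorem eval_revPoly (x : σ → K) (hx : ∀ i, x i ≠ 0) (p : MvPolynomial σ ℤ) :
    eval₂Hom (Int.castRingHom K) x (revPoly p) =
      (∏ i, x i ^ degreeOf i p) * eval₂Hom (Int.castRingHom K) (fun i => (x i)⁻¹) p := by
  have hsum : eval₂Hom (Int.castRingHom K) (fun i => (x i)⁻¹) p =
      ∑ α ∈ p.support,
        eval₂Hom (Int.castRingHom K) (fun i => (x i)⁻¹) (monomial α (coeff α p)) := by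
    conv_lhs => rw [as_sum p]
    rw [map_sum]
  rw [hsum, revPoly, map_sum, Finset.mul_sum]
  apply Finset.sum_congr rfl
  intro α hα
  rw [eval₂Hom_monomial, eval₂Hom_monomial, Finsupp.prod_fintype _ _ (fun i => pow_zero _),
    Finsupp.prod_fintype _ _ (fun i => pow_zero _), mul_left_comm, ← Finset.prod_mul_distrib]
  congr 1
  apply Finset.prod_congr rfl
  intro i _
  rw [revExp_apply, pow_sub₀ _ (hx i) (monomial_le_degreeOf i hα), inv_pow]

/-- **reversal**: algebraic independence of `x` implies that of `x⁻¹`. -/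
theorem injective_eval_inv (x : σ → K) (hx : ∀ i, x i ≠ 0)
    (hinj : Function.Injective (eval₂Hom (Int.castRingHom K) x)) :
    Function.Injective (eval₂Hom (Int.castRingHom K) fun i => (x i)⁻¹) := by
  rw [injective_iff_map_eq_zero]
  intro p hp
  by_contra hne
  have h1 := eval_revPoly x hx p
  rw [hp, mul_zero] at h1
  have h2 : revPoly p = 0 := by
    apply hinj
    rw [h1, map_zero]
  exact revPoly_ne_zero hne h2

end Fermat.Agent.GZ.Tate.T2Alg
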