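/-
GATE-Z (S15) / [MOD-beta] T2-ALG (helper93): the Euler derivations `X_i ∂/∂X_i` of `ℤ[X_i]` and the
"Wronskian lemma": if `S · θ_i C = C · θ_i S` for every `i` and `S ≠ 0` then `b C = a S` with
integers `a`, `b ≠ 0` (the common constants of the `θ_i` in the fraction field are rational).

Mathlib only.
-/
import Mathlib

set_option autoImplicit false

namespace Fermat.Agent.GZ.Tate.T2Alg

open MvPolynomial
open scoped MonomialOrder

variable {σ : Type*}

/-- the Euler derivation `X_i ∂/∂X_i`. -/
noncomputable def eulerD (i : σ) : Derivation ℤ (MvPolynomial σ ℤ) (MvPolynomial σ ℤ) :=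
  (X i : MvPolynomial σ ℤ) • pderiv i

theorem eulerD_apply (i : σ) (p : MvPolynomial σ ℤ) : eulerD i p = X i * pderiv i p := rfl

theorem eulerD_X_self (i : σ) : eulerD i (X i : MvPolynomial σ ℤ) = X i := by
  rw [eulerD_apply, pderiv_X_self, mul_one]

theorem eulerD_X_of_ne {i j : σ} (h : j ≠ i) : eulerD i (X j : MvPolynomial σ ℤ) = 0 := by
  classical
  rw [eulerD_apply, pderiv_X_of_ne h, mul_zero]

theorem eulerD_monomial (i : σ) (s : σ →₀ ℕ) (a : ℤ) :
    eulerD i (monomial s a) = monomial s (a * (s i : ℤ)) := by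
  classical
  rw [eulerD_apply, pderiv_monomial, X, monomial_mul, one_mul]
  by_cases h : s i = 0
  · simp [h]
  · have hle : Finsupp.single i 1 ≤ s := by
      rw [Finsupp.single_le_iff]
      exact Nat.one_le_iff_ne_zero.mpr h
    rw [add_tsub_cancel_of_le hle]

theorem coeff_eulerD (i : σ) (p : MvPolynomial σ ℤ) (α : σ →₀ ℕ) :
    coeff α (eulerD i p) = (α i : ℤ) * coeff α p := by
  classical
  induction p using MvPolynomial.induction_on' with
  | monomial s a =>
    rw [eulerD_monomial, coeff_monomial, coeff_monomial]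
    split_ifs with h
    · subst h; ring
    · ring
  | add p q hp hq => rw [map_add, coeff_add, coeff_add, hp, hq]; ring

variable (m : MonomialOrder σ)

theorem degree_eulerD_le (i : σ) (p : MvPolynomial σ ℤ) :
    m.degree (eulerD i p) ≼[m] m.degree p := by
  apply m.degree_le_degree_of_support_subset
  intro α hα
  rw [mem_support_iff, coeff_eulerD] at hα
  rw [mem_support_iff]
  exact right_ne_zero_of_mul hα

theorem degree_eq_of_wronskian {C S : MvPolynomial σ ℤ} (hC : C ≠ 0) (hS : S ≠ 0)
    (hW : ∀ i, S * eulerD i C = C * eulerD i S) : m.degree C = m.degree S := by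
  ext i
  have h := congrArg (coeff (m.degree S + m.degree C)) (hW i)
  rw [m.coeff_mul_of_add_of_degree_le le_rfl (degree_eulerD_le m i C)] at h
  rw [add_comm, m.coeff_mul_of_add_of_degree_le le_rfl (degree_eulerD_le m i S)] at h
  rw [coeff_eulerD, coeff_eulerD] at h
  have hlS : S.coeff (m.degree S) ≠ 0 := m.coeff_degree_ne_zero_iff.mpr hS
  have hlC : C.coeff (m.degree C) ≠ 0 := m.coeff_degree_ne_zero_iff.mpr hC
  have h0 : ((m.degree C i : ℤ) - (m.degree S i : ℤ)) *
      (S.coeff (m.degree S) * C.coeff (m.degree C)) = 0 := by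
    linear_combination h
  rcases mul_eq_zero.mp h0 with h1 | h1
  · exact_mod_cast sub_eq_zero.mp h1
  · exact absurd h1 (mul_ne_zero hlS hlC)

/-- **the Wronskian lemma.** -/
theorem exists_int_of_wronskian (m : MonomialOrder σ) {C S : MvPolynomial σ ℤ} (hS : S ≠ 0)
    (hW : ∀ i, S * eulerD i C = C * eulerD i S) :
    ∃ a b : ℤ, b ≠ 0 ∧ b • C = a • S := by
  refine ⟨C.coeff (m.degree S), S.coeff (m.degree S), m.coeff_degree_ne_zero_iff.mpr hS, ?_⟩
  by_contra hne
  set b := S.coeff (m.degree S) with hb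
  set a := C.coeff (m.degree S) with ha
  set E := b • C - a • S with hE
  have hE0 : E ≠ 0 := sub_ne_zero.mpr hne
  have hWE : ∀ i, S * eulerD i E = E * eulerD i S := by
    intro i
    rw [hE, map_sub, Derivation.map_smul, Derivation.map_smul, mul_sub, sub_mul, mul_smul_comm, mul_smul_comm,
      smul_mul_assoc, smul_mul_assoc, hW i]
  have hdeg := degree_eq_of_wronskian m hE0 hS hWE
  have h1 : E.coeff (m.degree E) ≠ 0 := m.coeff_degree_ne_zero_iff.mpr hE0
  apply h1
  rw [hdeg, hE, coeff_sub, coeff_smul, coeff_smul, smul_eq_mul, smul_eq_mul, ← hb, ← ha]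
  ring

end Fermat.Agent.GZ.Tate.T2Alg
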