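/-
GATE-Z (S15) / [MOD-beta] T2-ALG (helper93): the model field `ℚ(U, V) = Frac ℤ[U, V]` with its two
Euler derivations `U ∂/∂U`, `V ∂/∂V`, the inversion `ι : (U, V) ↦ (U⁻¹, V⁻¹)`, and the fact that the
common constants of the two derivations (the rationals) are fixed by `ι`.

Mathlib + T2Alg/{FracDeriv, Wronskian, InvEval}.
-/
import Fermat.Agent.GZ.Tate.T2Alg.FracDeriv
import Fermat.Agent.GZ.Tate.T2Alg.Wronskian
import Fermat.Agent.GZ.Tate.T2Alg.InvEval

set_option autoImplicit false

namespace Fermat.Agent.GZ.Tate.T2Alg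

open MvPolynomial

/-- `ℤ[U, V]`. -/
abbrev P2 : Type := MvPolynomial (Fin 2) ℤ

/-- `ℚ(U, V)`, as the fraction field of `ℤ[U, V]` (a type synonym, so that the only `ℤ`-algebra
structure in sight is the canonical one of a ring). -/
def Kuv : Type := FractionRing P2

noncomputable instance instFieldKuv : Field Kuv := inferInstanceAs (Field (FractionRing P2))

noncomputable instance instAlgebraKuv : Algebra P2 Kuv :=
  inferInstanceAs (Algebra P2 (FractionRing P2))

instance instIsFractionRingKuv : IsFractionRing P2 Kuv :=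
  inferInstanceAs (IsFractionRing P2 (FractionRing P2))

instance instCharZeroKuv : CharZero Kuv :=
  charZero_of_injective_algebraMap (IsFractionRing.injective P2 Kuv)

/-- the generators `U`, `V` of `ℚ(U, V)`. -/
noncomputable def gen (i : Fin 2) : Kuv := algebraMap P2 Kuv (X i)

theorem gen_ne_zero (i : Fin 2) : gen i ≠ 0 := by
  intro h
  have : (X i : P2) = 0 := IsFractionRing.injective P2 Kuv (by rw [map_zero]; exact h)
  exact X_ne_zero i this

/-- the Euler derivations of `ℚ(U, V)`. -/
noncomputable def dK (i : Fin 2) : Derivation ℤ Kuv Kuv :=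
  extDer (nonZeroDivisors P2) (eulerD i)

theorem dK_algebraMap (i : Fin 2) (p : P2) :
    dK i (algebraMap P2 Kuv p) = algebraMap P2 Kuv (eulerD i p) :=
  extDer_algebraMap _ _ p

theorem dK_gen_self (i : Fin 2) : dK i (gen i) = gen i := by
  rw [gen, dK_algebraMap, eulerD_X_self]

theorem dK_gen_of_ne {i j : Fin 2} (h : j ≠ i) : dK i (gen j) = 0 := by
  rw [gen, dK_algebraMap, eulerD_X_of_ne h, map_zero]

/-! ### the inversion -/

theorem eval₂Hom_gen : eval₂Hom (Int.castRingHom Kuv) gen = algebraMap P2 Kuv := by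
  apply MvPolynomial.ringHom_ext
  · intro r
    simp
  · intro i
    simp [gen]

/-- `p ↦ p(U⁻¹, V⁻¹)`. -/
noncomputable def invHom₀ : P2 →+* Kuv := eval₂Hom (Int.castRingHom Kuv) fun i => (gen i)⁻¹

theorem invHom₀_injective : Function.Injective invHom₀ := by
  apply injective_eval_inv gen gen_ne_zero
  rw [eval₂Hom_gen]
  exact IsFractionRing.injective P2 Kuv

/-- the inversion `ι : (U, V) ↦ (U⁻¹, V⁻¹)` of `ℚ(U, V)`. -/
noncomputable def invK : Kuv →+* Kuv := IsFractionRing.lift invHom₀_injective

theorem invK_algebraMap (p : P2) : invK (algebraMap P2 Kuv p) = invHom₀ p :=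
  IsFractionRing.lift_algebraMap _ p

theorem invK_gen (i : Fin 2) : invK (gen i) = (gen i)⁻¹ := by
  show invK (algebraMap P2 Kuv (X i)) = _
  rw [invK_algebraMap, invHom₀, eval₂Hom_X']

/-! ### the constants -/

/-- **the common constants of `U ∂/∂U` and `V ∂/∂V` are fixed by the inversion** (they are the
rational numbers). -/
theorem invK_of_const (c : Kuv) (h : ∀ i, dK i c = 0) : invK c = c := by
  obtain ⟨C, S, hS, rfl⟩ := IsFractionRing.div_surjective (A := P2) c
  have hS0 : algebraMap P2 Kuv S ≠ 0 :=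
    IsFractionRing.to_map_ne_zero_of_mem_nonZeroDivisors hS
  have hSne : S ≠ 0 := nonZeroDivisors.ne_zero hS
  have hW : ∀ i, S * eulerD i C = C * eulerD i S := by
    intro i
    have h1 := h i
    rw [Derivation.leibniz_div, dK_algebraMap, dK_algebraMap, smul_eq_mul, smul_eq_mul,
      smul_eq_mul] at h1
    have h2 : algebraMap P2 Kuv S * algebraMap P2 Kuv (eulerD i C) -
        algebraMap P2 Kuv C * algebraMap P2 Kuv (eulerD i S) = 0 := by
      rcases mul_eq_zero.mp h1 with h3 | h3
      · exact absurd h3 (pow_ne_zero 2 (inv_ne_zero hS0))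
      · exact h3
    apply IsFractionRing.injective P2 Kuv
    rw [map_mul, map_mul]
    exact sub_eq_zero.mp h2
  obtain ⟨a, b, hb, hab⟩ := exists_int_of_wronskian MonomialOrder.lex hSne hW
  have hab' : (b : Kuv) * algebraMap P2 Kuv C = (a : Kuv) * algebraMap P2 Kuv S := by
    have := congrArg (algebraMap P2 Kuv) hab
    rw [zsmul_eq_mul, zsmul_eq_mul, map_mul, map_mul, map_intCast, map_intCast] at this
    exact this
  have hb' : (b : Kuv) ≠ 0 := Int.cast_ne_zero.mpr hb
  have hc : algebraMap P2 Kuv C / algebraMap P2 Kuv S = (a : Kuv) / (b : Kuv) := by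
    rw [div_eq_div_iff hS0 hb']
    linear_combination hab'
  rw [hc, map_div₀, map_intCast, map_intCast]

end Fermat.Agent.GZ.Tate.T2Alg
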