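/-
GATE-Z (S15) / [MOD-beta] T2-ALG (helper93): the behaviour of the formal Tate series `Xf`, `Yf`
(helper71, `GZ/Tate/Weq/Formal.lean`) under a derivation of the coefficient ring acting
coefficientwise, and under "inversion".

For `u u' w : R` with `u u' = 1`, `(1 - u) w = 1` and a derivation `d` of `R`:
* `coeffD_Xf_of_moving` : `d u = u` ⟹ `coeffD d (Xf u u' w) = 2 Yf u u' w + Xf u u' w`;
* `coeffD_Xf_of_fixed`, `coeffD_Yf_of_fixed` : `d u = 0` ⟹ `coeffD d` kills `Xf`, `Yf`;
* `coeffD_map_intCast` : `coeffD d` kills the series with integer coefficients (`a₄`, `a₆`);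
* `Xf_inv`, `Yf_inv` : `Xf u' u (-u w) = Xf u u' w`, `Yf u' u (-u w) = -Yf u u' w - Xf u u' w`;
* `map_Xf_of_inv`, `map_Yf_of_inv` : the same for a ring endomorphism `ι` with `ι u = u'`.
-/
import Fermat.Agent.GZ.Tate.T2Alg.Abstract
import Fermat.Agent.GZ.Tate.Weq.Formal

set_option autoImplicit false

namespace Fermat.Agent.GZ.Tate.T2Alg

open PowerSeries Fermat.Agent.GZ.Tate.Weq

/-! ### binomial coefficients -/

theorem choose_two_succ (m : ℕ) : (m + 1).choose 2 = m.choose 2 + m := by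
  rw [Nat.choose_succ_succ' m 1, Nat.choose_one_right, add_comm]

theorem two_mul_choose_two_add (m : ℕ) : 2 * m.choose 2 + m = m * m := by
  induction m with
  | zero => simp
  | succ m ih =>
    rw [choose_two_succ]
    nlinarith [ih]

section

variable {R : Type*} [CommRing R] (d : Derivation ℤ R R) {u u' w : R}

theorem d_inv_of_moving (hu : u * u' = 1) (hd : d u = u) : d u' = -u' := by
  have h := d.leibniz_of_mul_eq_one (a := u') (b := u) (by rw [mul_comm]; exact hu)
  rw [h, hd, smul_eq_mul]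
  linear_combination (-u') * hu

theorem d_w_of_moving (hw : (1 - u) * w = 1) (hd : d u = u) : d w = u * w ^ 2 := by
  have h := d.leibniz_of_mul_eq_one (a := w) (b := 1 - u) (by rw [mul_comm]; exact hw)
  rw [h, map_sub, hd, smul_eq_mul]
  have h1 : d (1 : R) = 0 := d.map_one_eq_zero
  rw [h1]
  ring

theorem d_pow_of_eigen {a c : R} (h : d a = c * a) (m : ℕ) : d (a ^ m) = (m : R) * c * a ^ m := by
  rw [d.leibniz_pow, h, smul_eq_mul, nsmul_eq_mul]
  rcases m with _ | m
  · simp
  · rw [Nat.add_sub_cancel, pow_succ]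
    ring

/-- the coefficient of `q^N` of `2 Y + X`. -/
theorem two_yCoeff_add_xCoeff (N : ℕ) :
    2 * yCoeff u u' N + xCoeff u u' N =
      ∑ m ∈ N.divisors, ((m : R) * (m : R) * u ^ m - (m : R) * (m : R) * u' ^ m) := by
  rw [yCoeff, xCoeff, Finset.mul_sum, ← Finset.sum_add_distrib]
  apply Finset.sum_congr rfl
  intro m _
  have h1 : (2 : R) * ((m.choose 2 : ℕ) : R) + (m : R) = (m : R) * (m : R) := by
    exact_mod_cast congrArg (Nat.cast (R := R)) (two_mul_choose_two_add m)
  have h2 : (((m + 1).choose 2 : ℕ) : R) = ((m.choose 2 : ℕ) : R) + (m : R) := by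
    rw [choose_two_succ]; push_cast; ring
  rw [h2]
  linear_combination (u ^ m - u' ^ m) * h1

theorem coeffD_Xf_of_moving (hu : u * u' = 1) (hw : (1 - u) * w = 1) (hd : d u = u) :
    coeffD d (Xf u u' w) = 2 * Yf u u' w + Xf u u' w := by
  have hd' := d_inv_of_moving d hu hd
  have hdw := d_w_of_moving d hw hd
  have h2 : (2 : R⟦X⟧) = C (2 : R) := (map_ofNat (C (R := R)) 2).symm
  ext N
  rw [coeff_coeffD, map_add, h2, coeff_C_mul, coeff_Xf, coeff_Yf]
  split_ifs with hN
  · rw [d.leibniz, d.leibniz_pow, hd, hdw, smul_eq_mul, smul_eq_mul, smul_eq_mul, nsmul_eq_mul]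
    push_cast
    ring
  · rw [two_yCoeff_add_xCoeff, xCoeff, map_sum]
    apply Finset.sum_congr rfl
    intro m _
    have e1 : d (u ^ m) = (m : R) * 1 * u ^ m := d_pow_of_eigen d (by rw [hd, one_mul]) m
    have e2 : d (u' ^ m) = (m : R) * (-1) * u' ^ m :=
      d_pow_of_eigen d (by rw [hd']; ring) m
    have e3 : d (2 : R) = 0 := by
      have : (2 : R) = ((2 : ℕ) : R) := by norm_num
      rw [this, d.map_natCast]
    rw [d.leibniz, d.map_natCast, map_sub, map_add, e1, e2, e3, smul_eq_mul, smul_eq_mul]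
    ring

theorem d_inv_of_fixed (hu : u * u' = 1) (hd : d u = 0) : d u' = 0 := by
  have h := d.leibniz_of_mul_eq_one (a := u') (b := u) (by rw [mul_comm]; exact hu)
  rw [h, hd, smul_zero]

theorem d_w_of_fixed (hw : (1 - u) * w = 1) (hd : d u = 0) : d w = 0 := by
  have h := d.leibniz_of_mul_eq_one (a := w) (b := 1 - u) (by rw [mul_comm]; exact hw)
  rw [h, map_sub, hd, d.map_one_eq_zero, sub_zero, smul_zero]

theorem d_pow_of_fixed {a : R} (h : d a = 0) (m : ℕ) : d (a ^ m) = 0 := by
  rw [d.leibniz_pow, h, smul_zero, smul_zero]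

theorem coeffD_Xf_of_fixed (hu : u * u' = 1) (hw : (1 - u) * w = 1) (hd : d u = 0) :
    coeffD d (Xf u u' w) = 0 := by
  have hd' := d_inv_of_fixed d hu hd
  have hdw := d_w_of_fixed d hw hd
  ext N
  rw [coeff_coeffD, coeff_Xf, map_zero]
  split_ifs with hN
  · rw [d.leibniz, d_pow_of_fixed d hdw, hd, smul_zero, smul_zero, add_zero]
  · rw [xCoeff, map_sum]
    apply Finset.sum_eq_zero
    intro m _
    have e3 : d (2 : R) = 0 := by
      have : (2 : R) = ((2 : ℕ) : R) := by norm_num
      rw [this, d.map_natCast]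
    rw [d.leibniz, d.map_natCast, map_sub, map_add, d_pow_of_fixed d hd, d_pow_of_fixed d hd', e3]
    simp

theorem coeffD_Yf_of_fixed (hu : u * u' = 1) (hw : (1 - u) * w = 1) (hd : d u = 0) :
    coeffD d (Yf u u' w) = 0 := by
  have hd' := d_inv_of_fixed d hu hd
  have hdw := d_w_of_fixed d hw hd
  ext N
  rw [coeff_coeffD, coeff_Yf, map_zero]
  split_ifs with hN
  · rw [d.leibniz, d_pow_of_fixed d hdw, d_pow_of_fixed d hd, smul_zero, smul_zero, add_zero]
  · rw [yCoeff, map_sum]
    apply Finset.sum_eq_zero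
    intro m _
    rw [map_add, map_sub, d.leibniz, d.leibniz, d.map_natCast, d.map_natCast, d.map_natCast,
      d_pow_of_fixed d hd, d_pow_of_fixed d hd']
    simp

theorem coeffD_map_intCast (f : ℤ⟦X⟧) : coeffD d (PowerSeries.map (Int.castRingHom R) f) = 0 := by
  ext N
  rw [coeff_coeffD, coeff_map, map_zero]
  exact d.map_intCast _

end

/-! ### inversion -/

section

variable {R : Type*} [CommRing R] {u u' w : R}

theorem xCoeff_swap (N : ℕ) : xCoeff u' u N = xCoeff u u' N := by
  rw [xCoeff, xCoeff]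
  apply Finset.sum_congr rfl
  intro m _
  ring

theorem yCoeff_swap (N : ℕ) : yCoeff u' u N = -yCoeff u u' N - xCoeff u u' N := by
  rw [yCoeff, yCoeff, xCoeff, ← Finset.sum_neg_distrib, ← Finset.sum_sub_distrib]
  apply Finset.sum_congr rfl
  intro m _
  have h2 : (((m + 1).choose 2 : ℕ) : R) = ((m.choose 2 : ℕ) : R) + (m : R) := by
    rw [choose_two_succ]; push_cast; ring
  rw [h2]
  ring

theorem Xf_inv (hu : u * u' = 1) : Xf u' u (-u * w) = Xf u u' w := by
  ext N
  rw [coeff_Xf, coeff_Xf]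
  split_ifs with hN
  · linear_combination (u * w ^ 2) * hu
  · exact xCoeff_swap N

theorem Yf_inv (hu : u * u' = 1) (hw : (1 - u) * w = 1) :
    Yf u' u (-u * w) = -Yf u u' w - Xf u u' w := by
  ext N
  rw [map_sub, map_neg, coeff_Yf, coeff_Yf, coeff_Xf]
  split_ifs with hN
  · linear_combination (-(u * w ^ 3) * (u * u' + 1)) * hu - (u * w ^ 2) * hw
  · exact yCoeff_swap N

variable (ι : R →+* R)

theorem inv_u' (hu : u * u' = 1) (hι : ι u = u') : ι u' = u := by
  have h1 : u' * ι u' = 1 := by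
    have := congrArg ι hu
    rwa [map_mul, map_one, hι] at this
  calc ι u' = (u * u') * ι u' := by rw [hu, one_mul]
    _ = u * (u' * ι u') := by ring
    _ = u := by rw [h1, mul_one]

theorem inv_w (hu : u * u' = 1) (hw : (1 - u) * w = 1) (hι : ι u = u') : ι w = -u * w := by
  have h1 : (1 - u') * ι w = 1 := by
    have := congrArg ι hw
    rwa [map_mul, map_sub, map_one, hι] at this
  have h2 : (1 - u') * (-u * w) = 1 := by
    linear_combination hw + w * hu
  calc ι w = ι w * ((1 - u') * (-u * w)) := by rw [h2, mul_one]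
    _ = ((1 - u') * ι w) * (-u * w) := by ring
    _ = -u * w := by rw [h1, one_mul]

theorem map_Xf_of_inv (hu : u * u' = 1) (hw : (1 - u) * w = 1) (hι : ι u = u') :
    PowerSeries.map ι (Xf u u' w) = Xf u u' w := by
  rw [map_Xf, hι, inv_u' ι hu hι, inv_w ι hu hw hι, Xf_inv hu]

theorem map_Yf_of_inv (hu : u * u' = 1) (hw : (1 - u) * w = 1) (hι : ι u = u') :
    PowerSeries.map ι (Yf u u' w) = -Yf u u' w - Xf u u' w := by
  rw [map_Yf, hι, inv_u' ι hu hι, inv_w ι hu hw hι, Yf_inv hu hw]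

end

end Fermat.Agent.GZ.Tate.T2Alg
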