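/-
GATE-Z (S15) / [MOD-beta] T2-ALG (helper93): **the formal chord identities on the Tate curve from the
formal Weierstrass equation ALONE** (no complex analysis, no addition theorem for `℘`).

* `nodal_chord` : the chord identity modulo `q` (the nodal cubic `y² + x y = x³`, `x = u/(1-u)²`,
  `y = u²/(1-u)³`, is the multiplicative group).
* `chord_Kuv` : over the model field `ℚ(U, V)`: `ColRel ∧ SumRel` for the formal series
  `(Xf, Yf)` at `U`, `V`, `U V`, from `WeqF` over `ℚ(U, V)`.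
* `formal_chord` : the same over helper21's universal ring `R₀ = ℤ[U, V][1/(U V (1-U)(1-V)(1-UV))]`
  (`GZ/Tate/T2/Universal2.lean`), hence (by `exists_hom`) over every commutative ring:
  `formal_chord_of_rel`.

The only hypothesis is `hweq : ∀ a a' b : Kuv, a * a' = 1 → (1 - a) * b = 1 → WeqF a a' b`
(the formal Weierstrass equation over the field `Kuv = ℚ(U, V)`; helper71's `Weq/Universal`).

Route: Abel's relation for the chord (`D λ = x₁ - x₃`) makes the third point of the chord satisfy the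
same ODE `D x = -z`, `z² = f(x)` as `(X, -Y - X)(u v)` for BOTH Euler derivations `u ∂/∂u`,
`v ∂/∂v`; `q`-adic uniqueness of the solution (leading coefficient of the difference is a common
constant times `z₀`, the common constants are rational, and the inversion `(u, v) ↦ (1/u, 1/v)`
fixes the `x`'s and negates `z₀`) + the identity modulo `q`.
-/
import Fermat.Agent.GZ.Tate.T2Alg.Model
import Fermat.Agent.GZ.Tate.T2Alg.SeriesFacts
import Fermat.Agent.GZ.Tate.T2.Rel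
import Fermat.Agent.GZ.Tate.T2.Universal2

set_option autoImplicit false

namespace Fermat.Agent.GZ.Tate.T2Alg

open PowerSeries Fermat.Agent.GZ.Tate.Weq Fermat.Agent.GZ.Tate.T2

/-! ### the chord identity modulo `q` -/

theorem nodal_chord {K : Type*} [Field K] {a b wa wb wab e : K} (ha : (1 - a) * wa = 1)
    (hb : (1 - b) * wb = 1) (hab : (1 - a * b) * wab = 1)
    (he : (a * wa ^ 2 - b * wb ^ 2) * e = 1) :
    thirdX (a * wa ^ 2) (a ^ 2 * wa ^ 3) (b * wb ^ 2) (b ^ 2 * wb ^ 3) e = a * b * wab ^ 2 ∧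
    thirdY (a * wa ^ 2) (a ^ 2 * wa ^ 3) (b * wb ^ 2) (b ^ 2 * wb ^ 3) e =
      -((a * b) ^ 2 * wab ^ 3) - a * b * wab ^ 2 := by
  have ha0 : 1 - a ≠ 0 := left_ne_zero_of_mul_eq_one ha
  have hb0 : 1 - b ≠ 0 := left_ne_zero_of_mul_eq_one hb
  have hab0 : 1 - a * b ≠ 0 := left_ne_zero_of_mul_eq_one hab
  have hwa : wa = (1 - a)⁻¹ := eq_inv_of_mul_eq_one_right ha
  have hwb : wb = (1 - b)⁻¹ := eq_inv_of_mul_eq_one_right hb
  have hwab : wab = (1 - a * b)⁻¹ := eq_inv_of_mul_eq_one_right hab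
  have hne : a - b ≠ 0 := by
    intro h
    have h1 : a = b := sub_eq_zero.mp h
    subst h1
    have h2 : wa = wb := by rw [hwa, hwb]
    rw [h2, sub_self, zero_mul] at he
    exact zero_ne_one he
  have hx : a * wa ^ 2 - b * wb ^ 2 = (a - b) * (1 - a * b) * (wa ^ 2 * wb ^ 2) := by
    rw [hwa, hwb]
    field_simp
    ring
  have he' : e = (1 - a) ^ 2 * (1 - b) ^ 2 * ((a - b) * (1 - a * b))⁻¹ := by
    have h3 : e = (a * wa ^ 2 - b * wb ^ 2)⁻¹ := eq_inv_of_mul_eq_one_right he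
    rw [h3, hx, hwa, hwb]
    field_simp
  subst hwa hwb hwab he'
  unfold thirdY thirdX slope
  constructor
  · field_simp
    ring
  · field_simp
    ring

/-! ### functoriality and the two relations -/

theorem map_thirdX {R S : Type*} [CommRing R] [CommRing S] (f : R →+* S) (x₁ y₁ x₂ y₂ e : R) :
    f (thirdX x₁ y₁ x₂ y₂ e) = thirdX (f x₁) (f y₁) (f x₂) (f y₂) (f e) := by
  unfold thirdX slope
  simp only [map_add, map_sub, map_mul, map_pow]

theorem map_thirdY {R S : Type*} [CommRing R] [CommRing S] (f : R →+* S) (x₁ y₁ x₂ y₂ e : R) :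
    f (thirdY x₁ y₁ x₂ y₂ e) = thirdY (f x₁) (f y₁) (f x₂) (f y₂) (f e) := by
  unfold thirdY thirdX slope
  simp only [map_add, map_sub, map_mul, map_pow]

/-- the two relations of `GZ/Tate/T2/Rel.lean` from the third point of the chord. -/
theorem rel_of_third {R : Type*} [CommRing R] {x₁ y₁ x₂ y₂ e x₃ y₃ : R}
    (he : (x₁ - x₂) * e = 1) (hx : thirdX x₁ y₁ x₂ y₂ e = x₃)
    (hy : thirdY x₁ y₁ x₂ y₂ e = -y₃ - x₃) :
    ColRel x₁ y₁ x₂ y₂ x₃ y₃ ∧ SumRel x₁ y₁ x₂ y₂ x₃ := by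
  subst hx
  unfold thirdY at hy
  unfold thirdX slope at hy ⊢
  unfold ColRel SumRel
  constructor
  · linear_combination (x₁ - x₂) * hy -
      ((((y₁ - y₂) * e) ^ 2 + (y₁ - y₂) * e - x₁ - x₂) - x₁) * (y₁ - y₂) * he
  · linear_combination ((y₁ - y₂) ^ 2 * ((x₁ - x₂) * e + 1) + (y₁ - y₂) * (x₁ - x₂)) * he

/-! ### nonvanishing in `ℚ(U, V)` -/

theorem algebraMap_ne_zero_of_eval {p : P2} (x : Fin 2 → ℤ) (h : MvPolynomial.eval x p ≠ 0) :
    algebraMap P2 Kuv p ≠ 0 := by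
  intro h0
  apply h
  have : p = 0 := IsFractionRing.injective P2 Kuv (by rw [h0, map_zero])
  rw [this, map_zero]

theorem one_sub_gen_ne_zero (i : Fin 2) : (1 : Kuv) - gen i ≠ 0 := by
  have h : (1 : Kuv) - gen i = algebraMap P2 Kuv (1 - MvPolynomial.X i) := by
    rw [map_sub, map_one]; rfl
  rw [h]
  exact algebraMap_ne_zero_of_eval (fun _ => 0) (by simp)

theorem one_add_gen_ne_zero (i : Fin 2) : (1 : Kuv) + gen i ≠ 0 := by
  have h : (1 : Kuv) + gen i = algebraMap P2 Kuv (1 + MvPolynomial.X i) := by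
    rw [map_add, map_one]; rfl
  rw [h]
  exact algebraMap_ne_zero_of_eval (fun _ => 0) (by simp)

theorem one_sub_gen_mul_ne_zero : (1 : Kuv) - gen 0 * gen 1 ≠ 0 := by
  have h : (1 : Kuv) - gen 0 * gen 1 =
      algebraMap P2 Kuv (1 - MvPolynomial.X 0 * MvPolynomial.X 1) := by
    rw [map_sub, map_one, map_mul]; rfl
  rw [h]
  exact algebraMap_ne_zero_of_eval (fun _ => 0) (by simp)

theorem one_add_gen_mul_ne_zero : (1 : Kuv) + gen 0 * gen 1 ≠ 0 := by
  have h : (1 : Kuv) + gen 0 * gen 1 =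
      algebraMap P2 Kuv (1 + MvPolynomial.X 0 * MvPolynomial.X 1) := by
    rw [map_add, map_one, map_mul]; rfl
  rw [h]
  exact algebraMap_ne_zero_of_eval (fun _ => 0) (by simp)

theorem gen_sub_gen_ne_zero : gen 0 - gen 1 ≠ 0 := by
  have h : gen 0 - gen 1 = algebraMap P2 Kuv (MvPolynomial.X 0 - MvPolynomial.X 1) := by
    rw [map_sub]; rfl
  rw [h]
  exact algebraMap_ne_zero_of_eval ![1, 0] (by simp)

/-! ### the chord theorem over `ℚ(U, V)` -/

section Kuv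

/-- `U`, as an element of `ℚ(U, V)`. -/
noncomputable def gu : Kuv := gen 0
/-- `V`, as an element of `ℚ(U, V)`. -/
noncomputable def gv : Kuv := gen 1

theorem gu_mul_inv : gu * gu⁻¹ = 1 := mul_inv_cancel₀ (gen_ne_zero 0)
theorem gv_mul_inv : gv * gv⁻¹ = 1 := mul_inv_cancel₀ (gen_ne_zero 1)
theorem one_sub_gu_mul_inv : (1 - gu) * (1 - gu)⁻¹ = 1 := mul_inv_cancel₀ (one_sub_gen_ne_zero 0)
theorem one_sub_gv_mul_inv : (1 - gv) * (1 - gv)⁻¹ = 1 := mul_inv_cancel₀ (one_sub_gen_ne_zero 1)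
theorem one_sub_guv_mul_inv : (1 - gu * gv) * (1 - gu * gv)⁻¹ = 1 :=
  mul_inv_cancel₀ one_sub_gen_mul_ne_zero
theorem guv_mul_inv : (gu * gv) * (gu⁻¹ * gv⁻¹) = 1 := by
  rw [mul_mul_mul_comm, gu_mul_inv, gv_mul_inv, mul_one]

theorem dK_guv (i : Fin 2) : dK i (gu * gv) = gu * gv := by
  rw [Derivation.leibniz, smul_eq_mul, smul_eq_mul]
  fin_cases i
  · show gu * dK 0 (gen 1) + gv * dK 0 (gen 0) = _
    rw [dK_gen_self, dK_gen_of_ne (by decide), mul_zero, zero_add, mul_comm]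
    rfl
  · show gu * dK 1 (gen 1) + gv * dK 1 (gen 0) = _
    rw [dK_gen_self, dK_gen_of_ne (by decide), mul_zero, add_zero]
    rfl

theorem invK_gu : invK gu = gu⁻¹ := invK_gen 0
theorem invK_gv : invK gv = gv⁻¹ := invK_gen 1
theorem invK_guv : invK (gu * gv) = gu⁻¹ * gv⁻¹ := by rw [map_mul, invK_gu, invK_gv]

/-- the constant coefficient of `x₁ - x₂` does not vanish. -/
theorem x0_sub_ne_zero : gu * ((1 - gu)⁻¹) ^ 2 - gv * ((1 - gv)⁻¹) ^ 2 ≠ 0 := by
  have h1 := one_sub_gen_ne_zero 0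
  have h2 := one_sub_gen_ne_zero 1
  have h : gu * ((1 - gu)⁻¹) ^ 2 - gv * ((1 - gv)⁻¹) ^ 2 =
      (gu - gv) * (1 - gu * gv) * (((1 - gu)⁻¹) ^ 2 * ((1 - gv)⁻¹) ^ 2) := by
    have h1' : (1 : Kuv) - gu ≠ 0 := h1
    have h2' : (1 : Kuv) - gv ≠ 0 := h2
    field_simp
    ring
  rw [h]
  exact mul_ne_zero (mul_ne_zero gen_sub_gen_ne_zero one_sub_gen_mul_ne_zero)
    (mul_ne_zero (pow_ne_zero 2 (inv_ne_zero h1)) (pow_ne_zero 2 (inv_ne_zero h2)))

/-- **the chord theorem over `ℚ(U, V)`**: the third point of the chord through the formal points at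
`U` and `V` is the inverse of the formal point at `U V`. -/
theorem third_Kuv (hweq : ∀ a a' b : Kuv, a * a' = 1 → (1 - a) * b = 1 → WeqF a a' b) :
    ∃ e : Kuv⟦X⟧,
      (Xf gu gu⁻¹ (1 - gu)⁻¹ - Xf gv gv⁻¹ (1 - gv)⁻¹) * e = 1 ∧
      thirdX (Xf gu gu⁻¹ (1 - gu)⁻¹) (Yf gu gu⁻¹ (1 - gu)⁻¹) (Xf gv gv⁻¹ (1 - gv)⁻¹)
        (Yf gv gv⁻¹ (1 - gv)⁻¹) e = Xf (gu * gv) (gu⁻¹ * gv⁻¹) (1 - gu * gv)⁻¹ ∧
      thirdY (Xf gu gu⁻¹ (1 - gu)⁻¹) (Yf gu gu⁻¹ (1 - gu)⁻¹) (Xf gv gv⁻¹ (1 - gv)⁻¹)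
        (Yf gv gv⁻¹ (1 - gv)⁻¹) e =
        -Yf (gu * gv) (gu⁻¹ * gv⁻¹) (1 - gu * gv)⁻¹ - Xf (gu * gv) (gu⁻¹ * gv⁻¹) (1 - gu * gv)⁻¹ := by
  set x₁ := Xf gu gu⁻¹ (1 - gu)⁻¹ with hx₁
  set y₁ := Yf gu gu⁻¹ (1 - gu)⁻¹ with hy₁
  set x₂ := Xf gv gv⁻¹ (1 - gv)⁻¹ with hx₂
  set y₂ := Yf gv gv⁻¹ (1 - gv)⁻¹ with hy₂
  set x := Xf (gu * gv) (gu⁻¹ * gv⁻¹) (1 - gu * gv)⁻¹ with hx
  set Y := Yf (gu * gv) (gu⁻¹ * gv⁻¹) (1 - gu * gv)⁻¹ with hY
  set a₄ : Kuv⟦X⟧ := PowerSeries.map (Int.castRingHom Kuv) a4f with ha₄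
  set a₆ : Kuv⟦X⟧ := PowerSeries.map (Int.castRingHom Kuv) a6f with ha₆
  -- the three curve equations
  have h₁ : y₁ ^ 2 + x₁ * y₁ = x₁ ^ 3 + a₄ * x₁ + a₆ := hweq _ _ _ gu_mul_inv one_sub_gu_mul_inv
  have h₂ : y₂ ^ 2 + x₂ * y₂ = x₂ ^ 3 + a₄ * x₂ + a₆ := hweq _ _ _ gv_mul_inv one_sub_gv_mul_inv
  have h₃' : Y ^ 2 + x * Y = x ^ 3 + a₄ * x + a₆ := hweq _ _ _ guv_mul_inv one_sub_guv_mul_inv
  have h₃ : (-Y - x) ^ 2 + x * (-Y - x) = x ^ 3 + a₄ * x + a₆ := by linear_combination h₃'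
  -- constant coefficients
  have c_x₁ : constantCoeff x₁ = gu * ((1 - gu)⁻¹) ^ 2 := by
    rw [← coeff_zero_eq_constantCoeff_apply, hx₁, coeff_Xf, if_pos rfl]
  have c_y₁ : constantCoeff y₁ = gu ^ 2 * ((1 - gu)⁻¹) ^ 3 := by
    rw [← coeff_zero_eq_constantCoeff_apply, hy₁, coeff_Yf, if_pos rfl]
  have c_x₂ : constantCoeff x₂ = gv * ((1 - gv)⁻¹) ^ 2 := by
    rw [← coeff_zero_eq_constantCoeff_apply, hx₂, coeff_Xf, if_pos rfl]
  have c_y₂ : constantCoeff y₂ = gv ^ 2 * ((1 - gv)⁻¹) ^ 3 := by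
    rw [← coeff_zero_eq_constantCoeff_apply, hy₂, coeff_Yf, if_pos rfl]
  have c_x : constantCoeff x = gu * gv * ((1 - gu * gv)⁻¹) ^ 2 := by
    rw [← coeff_zero_eq_constantCoeff_apply, hx, coeff_Xf, if_pos rfl]
  have c_Y : constantCoeff Y = (gu * gv) ^ 2 * ((1 - gu * gv)⁻¹) ^ 3 := by
    rw [← coeff_zero_eq_constantCoeff_apply, hY, coeff_Yf, if_pos rfl]
  -- the inverse of `x₁ - x₂`
  have hc12 : constantCoeff (x₁ - x₂) ≠ 0 := by
    rw [map_sub, c_x₁, c_x₂]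
    exact x0_sub_ne_zero
  have he : (x₁ - x₂) * (x₁ - x₂)⁻¹ = 1 := PowerSeries.mul_inv_cancel _ hc12
  refine ⟨(x₁ - x₂)⁻¹, he, ?_⟩
  set e := (x₁ - x₂)⁻¹ with he_def
  -- derivations
  have ha₄d : ∀ i, coeffD (dK i) a₄ = 0 := fun i => coeffD_map_intCast _ _
  have ha₆d : ∀ i, coeffD (dK i) a₆ = 0 := fun i => coeffD_map_intCast _ _
  have h11x : coeffD (dK 0) x₁ = 2 * y₁ + x₁ :=
    coeffD_Xf_of_moving _ gu_mul_inv one_sub_gu_mul_inv (dK_gen_self 0)
  have h22x : coeffD (dK 1) x₂ = 2 * y₂ + x₂ :=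
    coeffD_Xf_of_moving _ gv_mul_inv one_sub_gv_mul_inv (dK_gen_self 1)
  have h12x : coeffD (dK 0) x₂ = 0 :=
    coeffD_Xf_of_fixed _ gv_mul_inv one_sub_gv_mul_inv (dK_gen_of_ne (by decide))
  have h12y : coeffD (dK 0) y₂ = 0 :=
    coeffD_Yf_of_fixed _ gv_mul_inv one_sub_gv_mul_inv (dK_gen_of_ne (by decide))
  have h21x : coeffD (dK 1) x₁ = 0 :=
    coeffD_Xf_of_fixed _ gu_mul_inv one_sub_gu_mul_inv (dK_gen_of_ne (by decide))
  have h21y : coeffD (dK 1) y₁ = 0 :=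
    coeffD_Yf_of_fixed _ gu_mul_inv one_sub_gu_mul_inv (dK_gen_of_ne (by decide))
  -- `2 y + x ≠ 0`
  have hz₁ : 2 * y₁ + x₁ ≠ 0 := by
    intro h
    have h0 := congrArg constantCoeff h
    rw [map_add, map_mul, map_ofNat, c_x₁, c_y₁, map_zero] at h0
    have h1 := one_sub_gen_ne_zero 0
    have h1' : (1 : Kuv) - gu ≠ 0 := h1
    have h2 : gu * (1 + gu) = 0 := by
      field_simp at h0
      linear_combination h0
    rcases mul_eq_zero.mp h2 with h3 | h3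
    · exact gen_ne_zero 0 h3
    · exact one_add_gen_ne_zero 0 h3
  have hz₂ : 2 * y₂ + x₂ ≠ 0 := by
    intro h
    have h0 := congrArg constantCoeff h
    rw [map_add, map_mul, map_ofNat, c_x₂, c_y₂, map_zero] at h0
    have h1 := one_sub_gen_ne_zero 1
    have h1' : (1 : Kuv) - gv ≠ 0 := h1
    have h2 : gv * (1 + gv) = 0 := by
      field_simp at h0
      linear_combination h0
    rcases mul_eq_zero.mp h2 with h3 | h3
    · exact gen_ne_zero 1 h3
    · exact one_add_gen_ne_zero 1 h3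
  have h11y : coeffD (dK 0) y₁ = 3 * x₁ ^ 2 + a₄ - y₁ :=
    D_y_of_curve h₁ (ha₄d 0) (ha₆d 0) h11x hz₁
  have h22y : coeffD (dK 1) y₂ = 3 * x₂ ^ 2 + a₄ - y₂ :=
    D_y_of_curve h₂ (ha₄d 1) (ha₆d 1) h22x hz₂
  have hCx : ∀ i, coeffD (dK i) x = -(2 * (-Y - x) + x) := by
    intro i
    have := coeffD_Xf_of_moving (dK i) guv_mul_inv one_sub_guv_mul_inv (dK_guv i)
    rw [← hx, ← hY] at this
    rw [this]
    ring
  -- inversion
  have hιx₁ : PowerSeries.map invK x₁ = x₁ :=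
    map_Xf_of_inv invK gu_mul_inv one_sub_gu_mul_inv invK_gu
  have hιy₁ : PowerSeries.map invK y₁ = -y₁ - x₁ :=
    map_Yf_of_inv invK gu_mul_inv one_sub_gu_mul_inv invK_gu
  have hιx₂ : PowerSeries.map invK x₂ = x₂ :=
    map_Xf_of_inv invK gv_mul_inv one_sub_gv_mul_inv invK_gv
  have hιy₂ : PowerSeries.map invK y₂ = -y₂ - x₂ :=
    map_Yf_of_inv invK gv_mul_inv one_sub_gv_mul_inv invK_gv
  have hιx : PowerSeries.map invK x = x :=
    map_Xf_of_inv invK guv_mul_inv one_sub_guv_mul_inv invK_guv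
  have hιY : PowerSeries.map invK Y = -Y - x :=
    map_Yf_of_inv invK guv_mul_inv one_sub_guv_mul_inv invK_guv
  have hιz : invK (constantCoeff (2 * (-Y - x) + x)) = -constantCoeff (2 * (-Y - x) + x) := by
    have h1 : PowerSeries.map invK (2 * (-Y - x) + x) = -(2 * (-Y - x) + x) := by
      rw [map_add, map_mul, map_sub, map_neg, hιx, hιY, map_ofNat]
      ring
    have h2 := congrArg constantCoeff h1
    rw [map_neg] at h2
    rw [← h2]
    simp only [← coeff_zero_eq_constantCoeff_apply, coeff_map]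
  -- modulo `X`
  have hce : (gu * ((1 - gu)⁻¹) ^ 2 - gv * ((1 - gv)⁻¹) ^ 2) * constantCoeff e = 1 := by
    have := congrArg constantCoeff he
    rwa [map_mul, map_sub, c_x₁, c_x₂, map_one] at this
  have hnod := nodal_chord one_sub_gu_mul_inv one_sub_gv_mul_inv one_sub_guv_mul_inv hce
  have h0x : constantCoeff (thirdX x₁ y₁ x₂ y₂ e) = constantCoeff x := by
    rw [map_thirdX, c_x₁, c_y₁, c_x₂, c_y₂, c_x]
    exact hnod.1
  have h0y : constantCoeff (thirdY x₁ y₁ x₂ y₂ e) = constantCoeff (-Y - x) := by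
    rw [map_thirdY, c_x₁, c_y₁, c_x₂, c_y₂, map_sub, map_neg, c_x, c_Y]
    exact hnod.2
  have hz0 : constantCoeff (2 * (-Y - x) + x) ≠ 0 := by
    rw [map_add, map_mul, map_sub, map_neg, map_ofNat, c_x, c_Y]
    have h1 : (1 : Kuv) - gu * gv ≠ 0 := one_sub_gen_mul_ne_zero
    intro h0
    have h2 : gu * gv * (1 + gu * gv) = 0 := by
      field_simp at h0
      linear_combination -h0
    rcases mul_eq_zero.mp h2 with h3 | h3
    · rcases mul_eq_zero.mp h3 with h4 | h4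
      · exact gen_ne_zero 0 h4
      · exact gen_ne_zero 1 h4
    · exact one_add_gen_mul_ne_zero h3
  exact chord_eq (dK 0) (dK 1) invK
    (fun c h0 h1 => invK_of_const c (fun i => by fin_cases i <;> assumption))
    (ha₄d 0) (ha₄d 1) (ha₆d 0) (ha₆d 1) h₁ h₂ h₃ he h11x h11y h12x h12y h22x h22y h21x h21y
    (hCx 0) (hCx 1) hιx₁ hιy₁ hιx₂ hιy₂ hιx hιz h0x h0y hz0

end Kuv

/-! ### descent to the universal ring and specialisation -/

section Descent

open Fermat.Agent.GZ.Tate.T2 in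
/-- a ring homomorphism `R₀ → ℚ(U, V)` with `U ↦ U`, `V ↦ V` is injective. -/
theorem injective_of_gen (φ : Univ.R₀ →+* Kuv) (hU : φ Univ.U = gu) (hV : φ Univ.V = gv) :
    Function.Injective φ := by
  have hcomp : φ.comp (algebraMap P2 Univ.R₀) = algebraMap P2 Kuv := by
    apply MvPolynomial.ringHom_ext
    · intro r
      simp
    · intro i
      fin_cases i
      · exact hU
      · exact hV
  rw [injective_iff_map_eq_zero]
  intro x hx
  obtain ⟨⟨a, s⟩, hs⟩ := IsLocalization.surj (Submonoid.powers Univ.f₀) x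
  have h1 : algebraMap P2 Kuv a = 0 := by
    rw [← hcomp, RingHom.comp_apply, ← hs, map_mul, hx, zero_mul]
  have h2 : a = 0 := IsFractionRing.injective P2 Kuv (by rw [h1, map_zero])
  rw [h2, map_zero] at hs
  exact (IsLocalization.map_units Univ.R₀ s).mul_left_eq_zero.mp hs

/-- **the formal chord identities over the universal ring `R₀`** (helper21's
`GZ/Tate/T2/Universal2.lean`), from the formal Weierstrass equation over `ℚ(U, V)`. -/
theorem formal_chord (hweq : ∀ a a' b : Kuv, a * a' = 1 → (1 - a) * b = 1 → WeqF a a' b) :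
    ColRel (Xf Univ.U Univ.U' Univ.dU) (Yf Univ.U Univ.U' Univ.dU)
        (Xf Univ.V Univ.V' Univ.dV) (Yf Univ.V Univ.V' Univ.dV)
        (Xf (Univ.U * Univ.V) (Univ.U' * Univ.V') Univ.dUV)
        (Yf (Univ.U * Univ.V) (Univ.U' * Univ.V') Univ.dUV) ∧
      SumRel (Xf Univ.U Univ.U' Univ.dU) (Yf Univ.U Univ.U' Univ.dU)
        (Xf Univ.V Univ.V' Univ.dV) (Yf Univ.V Univ.V' Univ.dV)
        (Xf (Univ.U * Univ.V) (Univ.U' * Univ.V') Univ.dUV) := by
  obtain ⟨φ, hU, hU', hdU, hV, hV', hdV, hdUV⟩ :=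
    Univ.exists_hom (S := Kuv) gu_mul_inv one_sub_gu_mul_inv gv_mul_inv one_sub_gv_mul_inv
      one_sub_guv_mul_inv
  have hinj := PowerSeries.map_injective φ (injective_of_gen φ hU hV)
  obtain ⟨e, he, hx, hy⟩ := third_Kuv hweq
  have hrel := rel_of_third he hx hy
  constructor
  · unfold ColRel
    apply hinj
    simp only [map_add, map_mul, map_sub, map_zero, map_Xf, map_Yf, hU, hU', hdU, hV, hV', hdV,
      hdUV]
    exact hrel.1
  · unfold SumRel
    apply hinj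
    simp only [map_add, map_mul, map_sub, map_pow, map_Xf, map_Yf, hU, hU', hdU, hV, hV', hdV,
      hdUV]
    exact hrel.2

/-- **the formal chord identities over any commutative ring**: for `u u' du v v' dv duv : S` with
`u u' = 1`, `(1 - u) du = 1`, `v v' = 1`, `(1 - v) dv = 1`, `(1 - u v) duv = 1`. -/
theorem formal_chord_of_rel
    (hweq : ∀ a a' b : Kuv, a * a' = 1 → (1 - a) * b = 1 → WeqF a a' b)
    {S : Type*} [CommRing S] {u u' du v v' dv duv : S} (h1 : u * u' = 1)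
    (h2 : (1 - u) * du = 1) (h3 : v * v' = 1) (h4 : (1 - v) * dv = 1)
    (h5 : (1 - u * v) * duv = 1) :
    ColRel (Xf u u' du) (Yf u u' du) (Xf v v' dv) (Yf v v' dv)
        (Xf (u * v) (u' * v') duv) (Yf (u * v) (u' * v') duv) ∧
      SumRel (Xf u u' du) (Yf u u' du) (Xf v v' dv) (Yf v v' dv) (Xf (u * v) (u' * v') duv) := by
  obtain ⟨φ, hU, hU', hdU, hV, hV', hdV, hdUV⟩ := Univ.exists_hom h1 h2 h3 h4 h5
  obtain ⟨hc, hs⟩ := formal_chord hweq
  have hc' := hc.map (PowerSeries.map φ)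
  have hs' := hs.map (PowerSeries.map φ)
  simp only [map_Xf, map_Yf, map_mul, hU, hU', hdU, hV, hV', hdV, hdUV] at hc' hs'
  exact ⟨hc', hs'⟩

end Descent

end Fermat.Agent.GZ.Tate.T2Alg
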